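import Fermat.Agent.F4.Coind.Shapiro1

/-!
# S56 / W2 / EC / Sh / H1 : Shapiro's lemma in degree 1 for smooth coinduction (helper48)

`r : D →* G`, `𝓤` a level structure on `G`, `X` a `k[D]`-module.

* `ecShInd r 𝓤 X` : the smooth coinduced module `coInd r 𝓤 X` of `F4/Coind/Basic.lean`, as a
  (non-reducible) definition: `ecShInd_def : ecShInd r 𝓤 X = coInd r 𝓤 X := rfl`;
* `ecShFun`  : the underlying function `G → X` of an element of `ecShInd r 𝓤 X`;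
* `ecShEv`   : the evaluation `φ ↦ φ 1`, equivariant along `r`;
* `ecShH1`   : `H¹_sm(G, ecShInd r 𝓤 X) ≃ H¹_sm(D, X)`  (SH1), `X` smooth, induced by
  `Z ↦ (d ↦ Z (r d) 1)`.
-/

set_option autoImplicit false

open CategoryTheory groupCohomology

namespace Fermat.Agent.F4

variable {k D G : Type} [CommRing k] [Group D] [Group G]

/-! ### Smooth `H¹` over a commutative ring: membership lemmas -/

section Basic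

variable {H : Type} [Group H] (𝓥 : Levels H) (N : Rep.{0} k H)

lemma ecSh_mem_Z1_iff (y : H → N) :
    y ∈ Z1 𝓥 N ↔ (∀ g h : H, y (g * h) = N.ρ g (y h) + y g) ∧ IsLC₁ 𝓥 y := by
  simp only [Z1, Submodule.mem_inf, mem_lc₁_iff]
  rw [mem_cocycles₁_iff]

lemma ecSh_mem_B1_iff (y : H → N) : y ∈ B1 N ↔ ∃ n : N, δ0 N n = y := by
  simp only [B1, LinearMap.mem_range]
  rfl

lemma ecSh_H1smπ_eq_zero_iff (y : ↥(Z1 𝓥 N)) :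
    H1smπ 𝓥 N y = 0 ↔ ∃ n : N, δ0 N n = y.1 := by
  rw [H1smπ, Submodule.mkQ_apply, Submodule.Quotient.mk_eq_zero, Submodule.mem_comap,
    Submodule.subtype_apply, ecSh_mem_B1_iff]

lemma ecSh_H1smπ_surjective : Function.Surjective (H1smπ 𝓥 N) :=
  Submodule.mkQ_surjective _

end Basic

section Ev

variable (r : D →* G) (𝓤 : Levels G) (X : Rep.{0} k D)

/-- The smooth coinduced module (a copy of `coInd r 𝓤 X` which is not unfolded by instance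
search). -/
abbrev ecShInd : Rep.{0} k G := coInd r 𝓤 X

lemma ecShInd_def : ecShInd r 𝓤 X = coInd r 𝓤 X := rfl

/-- The underlying function of an element of the coinduced module. -/
def ecShFun (φ : ecShInd r 𝓤 X) : G → X := ((show ↥(coIndSub r 𝓤 X) from φ) : G → X)

lemma ecShFun_equivariant (φ : ecShInd r 𝓤 X) (d : D) (x : G) :
    ecShFun r 𝓤 X φ (r d * x) = X.ρ d (ecShFun r 𝓤 X φ x) :=
  coIndSub_equivariant (show ↥(coIndSub r 𝓤 X) from φ) d x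

lemma ecShFun_isLC (φ : ecShInd r 𝓤 X) : IsLC₁ 𝓤 (ecShFun r 𝓤 X φ) :=
  coIndSub_isLC (show ↥(coIndSub r 𝓤 X) from φ)

lemma ecShFun_ρ (g : G) (φ : ecShInd r 𝓤 X) (x : G) :
    ecShFun r 𝓤 X ((ecShInd r 𝓤 X).ρ g φ) x = ecShFun r 𝓤 X φ (x * g) := rfl

lemma ecShFun_add (φ ψ : ecShInd r 𝓤 X) (x : G) :
    ecShFun r 𝓤 X (φ + ψ) x = ecShFun r 𝓤 X φ x + ecShFun r 𝓤 X ψ x := rfl

lemma ecShFun_sub (φ ψ : ecShInd r 𝓤 X) (x : G) :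
    ecShFun r 𝓤 X (φ - ψ) x = ecShFun r 𝓤 X φ x - ecShFun r 𝓤 X ψ x := rfl

lemma ecShFun_smul (c : k) (φ : ecShInd r 𝓤 X) (x : G) :
    ecShFun r 𝓤 X (c • φ) x = c • ecShFun r 𝓤 X φ x := rfl

lemma ecShFun_zero (x : G) : ecShFun r 𝓤 X 0 x = 0 := rfl

variable {r 𝓤 X} in
lemma ecShFun_ext {φ ψ : ecShInd r 𝓤 X} (h : ∀ x, ecShFun r 𝓤 X φ x = ecShFun r 𝓤 X ψ x) :
    φ = ψ :=
  Subtype.ext (funext h)

/-- An element of the coinduced module from its function. -/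
def ecShMk (f : G → X) (hf : f ∈ coIndSub r 𝓤 X) : ecShInd r 𝓤 X :=
  (⟨f, hf⟩ : ↥(coIndSub r 𝓤 X))

@[simp] lemma ecShFun_mk (f : G → X) (hf : f ∈ coIndSub r 𝓤 X) :
    ecShFun r 𝓤 X (ecShMk r 𝓤 X f hf) = f := rfl

/-- The coinduced module is smooth. -/
lemma ecShInd_smooth : IsSmooth 𝓤 (ecShInd r 𝓤 X) := coInd_smooth (r := r) (𝓤 := 𝓤) X

/-- The evaluation at `1`. -/
def ecShEv : (ecShInd r 𝓤 X) →ₗ[k] X where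
  toFun φ := ecShFun r 𝓤 X φ 1
  map_add' _ _ := rfl
  map_smul' _ _ := rfl

@[simp] lemma ecShEv_apply (φ : ecShInd r 𝓤 X) : ecShEv r 𝓤 X φ = ecShFun r 𝓤 X φ 1 := rfl

lemma ecShEv_ρ (d : D) (φ : ecShInd r 𝓤 X) :
    ecShEv r 𝓤 X ((ecShInd r 𝓤 X).ρ (r d) φ) = X.ρ d (ecShEv r 𝓤 X φ) := by
  rw [ecShEv_apply, ecShEv_apply, ecShFun_ρ, one_mul, ← ecShFun_equivariant, mul_one]

/-- The value at `g` is the evaluation of the translate. -/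
lemma ecShEv_ρ_apply (g : G) (φ : ecShInd r 𝓤 X) :
    ecShEv r 𝓤 X ((ecShInd r 𝓤 X).ρ g φ) = ecShFun r 𝓤 X φ g := by
  rw [ecShEv_apply, ecShFun_ρ, one_mul]

end Ev

section H1

variable (r : D →* G) (𝓤 : Levels G) (X : Rep.{0} k D)

lemma ecShZ1_mem (Z : G → ecShInd r 𝓤 X) (hZ : Z ∈ Z1 𝓤 (ecShInd r 𝓤 X)) :
    (fun d => ecShEv r 𝓤 X (Z (r d))) ∈ Z1 (𝓤.comap r) X := by
  obtain ⟨h1, h2⟩ := (ecSh_mem_Z1_iff 𝓤 _ Z).1 hZ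
  refine (ecSh_mem_Z1_iff _ X _).2 ⟨fun d e => ?_, ?_⟩
  · show ecShEv r 𝓤 X (Z (r (d * e))) = X.ρ d (ecShEv r 𝓤 X (Z (r e))) + ecShEv r 𝓤 X (Z (r d))
    rw [r.map_mul d e, h1 (r d) (r e), (ecShEv r 𝓤 X).map_add, ecShEv_ρ]
  · obtain ⟨U, hU, h⟩ := h2
    refine ⟨U.comap r, ⟨U, hU, rfl⟩, fun d s hs => ?_⟩
    show ecShEv r 𝓤 X (Z (r (d * s))) = ecShEv r 𝓤 X (Z (r d))
    rw [r.map_mul d s, h (r d) (r s) hs]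

/-- The Shapiro map on smooth 1-cocycles: `Z ↦ (d ↦ Z (r d) 1)`. -/
def ecShZ1 : ↥(Z1 𝓤 (ecShInd r 𝓤 X)) →ₗ[k] ↥(Z1 (𝓤.comap r) X) where
  toFun Z := ⟨fun d => ecShEv r 𝓤 X (Z.1 (r d)), ecShZ1_mem r 𝓤 X Z.1 Z.2⟩
  map_add' _ _ := rfl
  map_smul' _ _ := rfl

@[simp] lemma ecShZ1_coe (Z : ↥(Z1 𝓤 (ecShInd r 𝓤 X))) (d : D) :
    ((ecShZ1 r 𝓤 X Z : ↥(Z1 (𝓤.comap r) X)) : D → X) d = ecShEv r 𝓤 X (Z.1 (r d)) := rfl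

lemma ecShZ1_mem_B1 (Z : ↥(Z1 𝓤 (ecShInd r 𝓤 X)))
    (hZ : Z ∈ (B1 (ecShInd r 𝓤 X)).comap (Z1 𝓤 (ecShInd r 𝓤 X)).subtype) :
    ecShZ1 r 𝓤 X Z ∈ (B1 X).comap (Z1 (𝓤.comap r) X).subtype := by
  rw [Submodule.mem_comap, Submodule.subtype_apply] at hZ ⊢
  obtain ⟨φ, hφ⟩ := (ecSh_mem_B1_iff _ _).1 hZ
  refine (ecSh_mem_B1_iff _ _).2 ⟨ecShEv r 𝓤 X φ, ?_⟩
  funext d
  rw [ecShZ1_coe, ← hφ, δ0_apply, δ0_apply, (ecShEv r 𝓤 X).map_sub, ecShEv_ρ]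

/-- The Shapiro map on smooth `H¹`. -/
def ecShH1Map : H1sm 𝓤 (ecShInd r 𝓤 X) →ₗ[k] H1sm (𝓤.comap r) X :=
  Submodule.mapQ _ _ (ecShZ1 r 𝓤 X) (ecShZ1_mem_B1 r 𝓤 X)

@[simp] lemma ecShH1Map_mk (Z : ↥(Z1 𝓤 (ecShInd r 𝓤 X))) :
    ecShH1Map r 𝓤 X (H1smπ 𝓤 _ Z) = H1smπ _ X (ecShZ1 r 𝓤 X Z) := rfl

/-- Injectivity on cocycles: if `d ↦ Z (r d) 1` is the coboundary of `x`, then `Z` is the
coboundary of `g ↦ Z g 1 + x`. -/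
lemma ecSh_cob_of_cob (Z : G → ecShInd r 𝓤 X) (hZ : Z ∈ Z1 𝓤 (ecShInd r 𝓤 X)) (x : X)
    (hx : ∀ d : D, ecShFun r 𝓤 X (Z (r d)) 1 = X.ρ d x - x) :
    ∃ φ : ecShInd r 𝓤 X, δ0 (ecShInd r 𝓤 X) φ = Z := by
  obtain ⟨h1, h2⟩ := (ecSh_mem_Z1_iff 𝓤 _ Z).1 hZ
  have hcoc : ∀ g y : G, ecShFun r 𝓤 X (Z (y * g)) 1
      = ecShFun r 𝓤 X (Z g) y + ecShFun r 𝓤 X (Z y) 1 := by
    intro g y
    rw [h1 y g, ecShFun_add, ecShFun_ρ, one_mul]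
  have hmem : (fun g => ecShFun r 𝓤 X (Z g) 1 + x) ∈ coIndSub r 𝓤 X := by
    refine ⟨fun d g => ?_, ?_⟩
    · show ecShFun r 𝓤 X (Z (r d * g)) 1 + x = X.ρ d (ecShFun r 𝓤 X (Z g) 1 + x)
      rw [hcoc g (r d), hx d, (X.ρ d).map_add]
      have := ecShFun_equivariant r 𝓤 X (Z g) d 1
      rw [mul_one] at this
      rw [this]
      abel
    · obtain ⟨U, hU, h⟩ := h2
      refine ⟨U, hU, fun g s hs => ?_⟩
      show ecShFun r 𝓤 X (Z (g * s)) 1 + x = _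
      rw [h g s hs]
  refine ⟨ecShMk r 𝓤 X _ hmem, ?_⟩
  funext g
  refine ecShFun_ext fun y => ?_
  rw [δ0_apply, ecShFun_sub, ecShFun_ρ, ecShFun_mk]
  show ecShFun r 𝓤 X (Z (y * g)) 1 + x - (ecShFun r 𝓤 X (Z y) 1 + x) = _
  rw [hcoc g y]
  abel

/-- **Shapiro, degree 1, injectivity.** -/
theorem ecShH1Map_injective : Function.Injective (ecShH1Map r 𝓤 X) := by
  rw [injective_iff_map_eq_zero]
  intro c hc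
  obtain ⟨Z, rfl⟩ := ecSh_H1smπ_surjective 𝓤 _ c
  rw [ecShH1Map_mk, ecSh_H1smπ_eq_zero_iff] at hc
  obtain ⟨x, hx⟩ := hc
  rw [ecSh_H1smπ_eq_zero_iff]
  exact ecSh_cob_of_cob r 𝓤 X Z.1 Z.2 x fun d => (congrFun hx d).symm

/-- The complex `X[0]` is smooth if `X` is. -/
lemma ecSh_deg0_smooth {H : Type} [Group H] (𝓥 : Levels H) (Y : Rep.{0} k H) (hY : IsSmooth 𝓥 Y) :
    (Cx.deg0 Y).Smooth 𝓥 := by
  refine ⟨hY, fun b => ?_⟩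
  obtain ⟨U, hU⟩ := 𝓥.nonempty
  exact ⟨U, hU, fun _ _ => rfl⟩

/-- Surjectivity on cocycles. -/
lemma ecSh_exists_lift (hX : IsSmooth (𝓤.comap r) X) (z : D → X) (hz : z ∈ Z1 (𝓤.comap r) X) :
    ∃ Z : G → ecShInd r 𝓤 X, Z ∈ Z1 𝓤 (ecShInd r 𝓤 X) ∧
      ∀ d, ecShFun r 𝓤 X (Z (r d)) 1 = z d := by
  obtain ⟨h1, h2⟩ := (ecSh_mem_Z1_iff _ X z).1 hz
  have hz' : ((z, PUnit.unit) : T1 (Cx.deg0 X)) ∈ ZZ1 (𝓤.comap r) (Cx.deg0 X) := by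
    refine (mem_ZZ1_iff _ _ _).2 ⟨?_, ?_, h2⟩
    · funext p
      show X.ρ p.1 (z p.2) - z (p.1 * p.2) + z p.1 = 0
      rw [h1 p.1 p.2]
      abel
    · rfl
  obtain ⟨Z, hZ, hev⟩ := shapiro1_coInd r 𝓤 (Cx.deg0 X) (ecSh_deg0_smooth _ X hX) _ hz'
  obtain ⟨hZ1, -, hZ3⟩ := (mem_ZZ1_iff 𝓤 _ Z).1 hZ
  refine ⟨Z.1, (ecSh_mem_Z1_iff 𝓤 _ _).2 ⟨fun g h => ?_, hZ3⟩, fun d => ?_⟩
  · have := congrFun hZ1 (g, h)
    simp only [δ1_apply, Pi.zero_apply] at this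
    rw [sub_add_eq_add_sub, sub_eq_zero] at this
    exact this.symm
  · exact congrFun (congrArg Prod.fst hev) d

/-- **Shapiro, degree 1, surjectivity.** -/
theorem ecShH1Map_surjective (hX : IsSmooth (𝓤.comap r) X) :
    Function.Surjective (ecShH1Map r 𝓤 X) := by
  intro c
  obtain ⟨z, rfl⟩ := ecSh_H1smπ_surjective _ X c
  obtain ⟨Z, hZ, hev⟩ := ecSh_exists_lift r 𝓤 X hX z.1 z.2
  refine ⟨H1smπ 𝓤 _ ⟨Z, hZ⟩, ?_⟩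
  rw [ecShH1Map_mk]
  congr 1
  exact Subtype.ext (funext hev)

/-- **(SH1) Shapiro's lemma in degree 1**: `H¹_sm(G, coInd X) ≃ H¹_sm(D, X)`. -/
noncomputable def ecShH1 (hX : IsSmooth (𝓤.comap r) X) :
    H1sm 𝓤 (ecShInd r 𝓤 X) ≃ₗ[k] H1sm (𝓤.comap r) X :=
  LinearEquiv.ofBijective (ecShH1Map r 𝓤 X)
    ⟨ecShH1Map_injective r 𝓤 X, ecShH1Map_surjective r 𝓤 X hX⟩

@[simp] lemma ecShH1_mk (hX : IsSmooth (𝓤.comap r) X) (Z : ↥(Z1 𝓤 (ecShInd r 𝓤 X))) :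
    ecShH1 r 𝓤 X hX (H1smπ 𝓤 _ Z) = H1smπ _ X (ecShZ1 r 𝓤 X Z) := rfl

end H1

end Fermat.Agent.F4
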