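import Fermat.Agent.S56.W2.EC.Sh.Coord
import Fermat.Agent.F4.Duality
import Fermat.Agent.F4.Pairing

/-!
# S56 / W2 / EC / Sh / Hom : Frobenius reciprocity for smooth coinduction (helper48)

`U ≤ G` open, `X` a smooth `k[U]`-module, `M = coInd U.subtype 𝓤 X`, `K` a 2-term complex of
`k[G]`-modules.

* `ecShJ`    : `X → M`, `x ↦` the function supported on `U` with value `x` at `1`
  (`U`-equivariant);
* `ecSh_sum_ρ_J` : `φ = ∑_y s(y) • j (π_y φ)`;
* `ecShHom`  : `HH⁰(G, Hom(M, K)) ≃ HH⁰(U, Hom(X, K|_U))`   (SHom), `F ↦ F ∘ j`, i.e.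
  `Hom_G(coInd X, ker d) = Hom_U(X, ker d)`.
-/

set_option autoImplicit false

open CategoryTheory groupCohomology

namespace Fermat.Agent.F4

variable {k G : Type} [CommRing k] [Group G]

/-! ### `HH⁰` of a `Hom` complex -/

section HH0

variable {H : Type} [Group H] (N : Rep.{0} k H) (K : Cx k H)

/-- A linear map as an element of `Hom(N, K)⁰`. -/
def ecShToHom (f : N →ₗ[k] K.K0) : (homCx N K).K0 := f

/-- An element of `Hom(N, K)⁰` as a linear map. -/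
def ecShOfHom (f : (homCx N K).K0) : N →ₗ[k] K.K0 := f

@[simp] lemma ecShOfHom_toHom (f : N →ₗ[k] K.K0) : ecShOfHom N K (ecShToHom N K f) = f := rfl

@[simp] lemma ecShToHom_ofHom (f : (homCx N K).K0) : ecShToHom N K (ecShOfHom N K f) = f := rfl

lemma ecSh_mem_HH0_iff (f : (homCx N K).K0) :
    f ∈ HH0 (homCx N K) ↔
      (∀ (h : H) (n : N), ecShOfHom N K f (N.ρ h n) = K.K0.ρ h (ecShOfHom N K f n)) ∧
        ∀ n : N, K.d (ecShOfHom N K f n) = 0 := by
  rw [HH0, LinearMap.mem_ker, D0_apply, Prod.mk_eq_zero]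
  constructor
  · rintro ⟨h1, h2⟩
    refine ⟨fun h n => ?_, fun n => ?_⟩
    · have := congrFun h1 h
      rw [δ0_apply, Pi.zero_apply, sub_eq_zero] at this
      have h3 := congrArg (fun u : N →ₗ[k] K.K0 => u (N.ρ h n)) this
      simp only at h3
      rw [homRep_ρ_apply] at h3
      have h4 : N.ρ h⁻¹ (N.ρ h n) = n := by
        rw [← Module.End.mul_apply, ← map_mul, inv_mul_cancel, map_one, Module.End.one_apply]
      rw [h4] at h3
      exact h3.symm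
    · exact congrArg (fun u : N →ₗ[k] K.K1 => u n) h2
  · rintro ⟨h1, h2⟩
    refine ⟨?_, LinearMap.ext fun n => h2 n⟩
    funext h
    rw [δ0_apply, Pi.zero_apply, sub_eq_zero]
    refine LinearMap.ext fun n => ?_
    rw [homRep_ρ_apply]
    have := h1 h (N.ρ h⁻¹ n)
    have h4 : N.ρ h (N.ρ h⁻¹ n) = n := by
      rw [← Module.End.mul_apply, ← map_mul, mul_inv_cancel, map_one, Module.End.one_apply]
    rw [h4] at this
    exact this.symm

end HH0

/-! ### The embedding `j` and generation -/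

section J

variable {𝓤 : Levels G} {U : Subgroup G} {X : Rep.{0} k ↥U}
  (hU : 𝓤.IsOpen U) (hX : IsSmooth (𝓤.comap U.subtype) X)

open Classical in
/-- `j x` : the coinduced function supported on `U` with value `x` at `1`. -/
noncomputable def ecShJ : X →ₗ[k] (ecShInd U.subtype 𝓤 X) :=
  (ecShCoord hU hX).symm.toLinearMap ∘ₗ LinearMap.single k (fun _ : G ⧸ U => X) (shBase U)

open Classical in
lemma ecShPi_J (y : G ⧸ U) (x : X) :
    ecShPi 𝓤 U X y (ecShJ hU hX x) = if y = shBase U then x else 0 := by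
  have h := congrFun ((ecShCoord hU hX).apply_symm_apply (Pi.single (shBase U) x)) y
  rw [ecShCoord_apply] at h
  show ecShPi 𝓤 U X y ((ecShCoord hU hX).symm (Pi.single (shBase U) x)) = _
  rw [h, Pi.single_apply]

lemma ecSh_smul_eq_base_iff (g : G) (z : G ⧸ U) : g⁻¹ • z = shBase U ↔ z = g • shBase U := by
  rw [inv_smul_eq_iff]

open Classical in
lemma ecShPi_ρ_J (z : G ⧸ U) (g : G) (x : X) :
    ecShPi 𝓤 U X z ((ecShInd U.subtype 𝓤 X).ρ g (ecShJ hU hX x))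
      = if z = g • shBase U then X.ρ (shW U z g) x else 0 := by
  rw [ecShPi_ρ, ecShPi_J]
  by_cases h : z = g • shBase U
  · rw [if_pos h, if_pos ((ecSh_smul_eq_base_iff g z).2 h)]
  · rw [if_neg h, if_neg (fun h' => h ((ecSh_smul_eq_base_iff g z).1 h')), map_zero]

lemma ecShW_shSec (y : G ⧸ U) : shW U y (shSec U y) = 1 := by
  apply Subtype.ext
  rw [shW_coe, shSec_inv_smul, shSec_base, mul_one, inv_mul_cancel]
  rfl

/-- `j` is `U`-equivariant. -/
lemma ecShJ_ρ (u : U) (x : X) :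
    ecShJ hU hX (X.ρ u x) = (ecShInd U.subtype 𝓤 X).ρ (u : G) (ecShJ hU hX x) := by
  classical
  refine ecShPi_ext 𝓤 U X fun z => ?_
  rw [ecShPi_ρ_J, ecShPi_J, smul_base_of_mem U u.2]
  by_cases h : z = shBase U
  · rw [if_pos h, if_pos h, h, shW_base]
  · rw [if_neg h, if_neg h]

variable [Fintype (G ⧸ U)]

/-- **Generation**: `φ = ∑_y s(y) • j (π_y φ)`. -/
lemma ecSh_sum_ρ_J (φ : ecShInd U.subtype 𝓤 X) :
    ∑ y : G ⧸ U, (ecShInd U.subtype 𝓤 X).ρ (shSec U y) (ecShJ hU hX (ecShPi 𝓤 U X y φ)) = φ := by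
  classical
  refine ecShPi_ext 𝓤 U X fun z => ?_
  rw [map_sum]
  rw [Finset.sum_eq_single z]
  · rw [ecShPi_ρ_J, if_pos (shSec_smul_base U z).symm, ecShW_shSec, map_one]
    rfl
  · intro y _ hy
    rw [ecShPi_ρ_J, if_neg]
    rw [shSec_smul_base]
    exact fun h => hy h.symm
  · intro h
    exact absurd (Finset.mem_univ z) h

end J

/-! ### Frobenius reciprocity -/

section Frob

variable {𝓤 : Levels G} {U : Subgroup G} {X : Rep.{0} k ↥U}
  (hU : 𝓤.IsOpen U) (hX : IsSmooth (𝓤.comap U.subtype) X) (Y : Rep.{0} k G)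

variable [Fintype (G ⧸ U)]

variable (𝓤 X) in
/-- The extension of `f : X → Y` to the coinduced module: `φ ↦ ∑_y s(y) • f (π_y φ)`. -/
noncomputable def ecShExt (f : X →ₗ[k] Y) : (ecShInd U.subtype 𝓤 X) →ₗ[k] Y :=
  ∑ y : G ⧸ U, (Y.ρ (shSec U y)) ∘ₗ f ∘ₗ ecShPi 𝓤 U X y

lemma ecShExt_apply (f : X →ₗ[k] Y) (φ : ecShInd U.subtype 𝓤 X) :
    ecShExt 𝓤 X Y f φ = ∑ y : G ⧸ U, Y.ρ (shSec U y) (f (ecShPi 𝓤 U X y φ)) := by
  rw [ecShExt, LinearMap.sum_apply]
  rfl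

/-- The extension of a `U`-equivariant map is `G`-equivariant. -/
lemma ecShExt_ρ (f : X →ₗ[k] Y) (hf : ∀ (u : U) (x : X), f (X.ρ u x) = Y.ρ (u : G) (f x))
    (g : G) (φ : ecShInd U.subtype 𝓤 X) :
    ecShExt 𝓤 X Y f ((ecShInd U.subtype 𝓤 X).ρ g φ) = Y.ρ g (ecShExt 𝓤 X Y f φ) := by
  rw [ecShExt_apply, ecShExt_apply, map_sum]
  have h1 : ∀ y : G ⧸ U, Y.ρ (shSec U y) (f (ecShPi 𝓤 U X y ((ecShInd U.subtype 𝓤 X).ρ g φ)))
      = Y.ρ g (Y.ρ (shSec U (g⁻¹ • y)) (f (ecShPi 𝓤 U X (g⁻¹ • y) φ))) := by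
    intro y
    rw [ecShPi_ρ, hf, ← Module.End.mul_apply, ← map_mul, shSec_mul_shW, map_mul,
      Module.End.mul_apply]
  rw [Finset.sum_congr rfl fun y _ => h1 y]
  exact Fintype.sum_equiv (MulAction.toPerm g⁻¹) _ _ fun y => rfl

lemma ecShExt_J (f : X →ₗ[k] Y) (x : X) : ecShExt 𝓤 X Y f (ecShJ hU hX x) = f x := by
  classical
  rw [ecShExt_apply, Finset.sum_eq_single (shBase U)]
  · rw [ecShPi_J, if_pos rfl, shSec_base, map_one]
    rfl
  · intro y _ hy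
    rw [ecShPi_J, if_neg hy, map_zero, map_zero]
  · intro h
    exact absurd (Finset.mem_univ _) h

/-- A `G`-equivariant map on the coinduced module is the extension of its restriction to `X`. -/
lemma ecShExt_comp_J (F : (ecShInd U.subtype 𝓤 X) →ₗ[k] Y)
    (hF : ∀ (g : G) (φ : ecShInd U.subtype 𝓤 X), F ((ecShInd U.subtype 𝓤 X).ρ g φ) = Y.ρ g (F φ)) :
    ecShExt 𝓤 X Y (F ∘ₗ ecShJ hU hX) = F := by
  refine LinearMap.ext fun φ => ?_
  rw [ecShExt_apply]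
  conv_rhs => rw [← ecSh_sum_ρ_J hU hX φ, map_sum]
  refine Finset.sum_congr rfl fun y _ => ?_
  rw [hF]
  rfl

end Frob

end Fermat.Agent.F4

namespace Fermat.Agent.F4

variable {k G : Type} [CommRing k] [Group G]

section HomEquiv

variable {𝓤 : Levels G} {U : Subgroup G} {X : Rep.{0} k ↥U}
  (hU : 𝓤.IsOpen U) (hX : IsSmooth (𝓤.comap U.subtype) X) (K : Cx k G)

/-- The target of a map into `K|_U`, as a map into `K`. -/
def ecShResOut (f : X →ₗ[k] (K.res U.subtype).K0) : X →ₗ[k] K.K0 := f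

/-- A map into `K`, as a map into `K|_U`. -/
def ecShResIn (f : X →ₗ[k] K.K0) : X →ₗ[k] (K.res U.subtype).K0 := f

lemma ecSh_res_ρ (u : U) (a : K.K0) : (K.res U.subtype).K0.ρ u a = K.K0.ρ (u : G) a := rfl

lemma ecSh_res_d (a : K.K0) : (K.res U.subtype).d a = K.d a := rfl

lemma ecShHom_mem_fwd (F : (homCx (ecShInd U.subtype 𝓤 X) K).K0)
    (hF : F ∈ HH0 (homCx (ecShInd U.subtype 𝓤 X) K)) :
    ecShToHom X (K.res U.subtype) (ecShResIn K (ecShOfHom _ K F ∘ₗ ecShJ hU hX))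
      ∈ HH0 (homCx X (K.res U.subtype)) := by
  obtain ⟨h1, h2⟩ := (ecSh_mem_HH0_iff _ K F).1 hF
  refine (ecSh_mem_HH0_iff X (K.res U.subtype) _).2 ⟨fun u x => ?_, fun x => ?_⟩
  · show ecShOfHom _ K F (ecShJ hU hX (X.ρ u x)) = K.K0.ρ (u : G) (ecShOfHom _ K F (ecShJ hU hX x))
    rw [ecShJ_ρ, h1]
  · exact h2 _

variable [Fintype (G ⧸ U)]

lemma ecShHom_mem_bwd (f : (homCx X (K.res U.subtype)).K0)
    (hf : f ∈ HH0 (homCx X (K.res U.subtype))) :
    ecShToHom (ecShInd U.subtype 𝓤 X) K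
        (ecShExt 𝓤 X K.K0 (ecShResOut K (ecShOfHom X (K.res U.subtype) f)))
      ∈ HH0 (homCx (ecShInd U.subtype 𝓤 X) K) := by
  obtain ⟨h1, h2⟩ := (ecSh_mem_HH0_iff X (K.res U.subtype) f).1 hf
  refine (ecSh_mem_HH0_iff _ K _).2 ⟨fun g φ => ?_, fun φ => ?_⟩
  · exact ecShExt_ρ K.K0 _ (fun u x => h1 u x) g φ
  · show K.d (ecShExt 𝓤 X K.K0 _ φ) = 0
    rw [ecShExt_apply, map_sum]
    refine Finset.sum_eq_zero fun y _ => ?_
    rw [K.comm]
    have h3 : K.d (ecShOfHom X (K.res U.subtype) f (ecShPi 𝓤 U X y φ)) = 0 :=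
      h2 (ecShPi 𝓤 U X y φ)
    show K.K1.ρ (shSec U y) (K.d (ecShOfHom X (K.res U.subtype) f (ecShPi 𝓤 U X y φ))) = 0
    rw [h3, map_zero]

/-- **(SHom) Frobenius reciprocity**: `HH⁰(G, Hom(coInd X, K)) ≃ HH⁰(U, Hom(X, K|_U))`. -/
noncomputable def ecShHom :
    ↥(HH0 (homCx (ecShInd U.subtype 𝓤 X) K)) ≃ₗ[k] ↥(HH0 (homCx X (K.res U.subtype))) where
  toFun F := ⟨_, ecShHom_mem_fwd hU hX K F.1 F.2⟩
  map_add' _ _ := rfl
  map_smul' _ _ := rfl
  invFun f := ⟨_, ecShHom_mem_bwd K f.1 f.2⟩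
  left_inv F := by
    obtain ⟨h1, -⟩ := (ecSh_mem_HH0_iff _ K F.1).1 F.2
    exact Subtype.ext (ecShExt_comp_J hU hX K.K0 (ecShOfHom _ K F.1) h1)
  right_inv f := Subtype.ext (LinearMap.ext fun x =>
    ecShExt_J hU hX K.K0 (ecShResOut K (ecShOfHom X (K.res U.subtype) f.1)) x)

include hU hX in
lemma ecSh_finrank_HH0_hom :
    Module.finrank k ↥(HH0 (homCx (ecShInd U.subtype 𝓤 X) K))
      = Module.finrank k ↥(HH0 (homCx X (K.res U.subtype))) :=
  (ecShHom hU hX K).finrank_eq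

end HomEquiv

end Fermat.Agent.F4

namespace Fermat.Agent.F4

variable {k G : Type} [CommRing k] [Group G]

/-- (SHom) in dimensions, without a chosen `Fintype` structure on `G ⧸ U`. -/
theorem ecSh_finrank_HH0_hom_of_isOpen {𝓤 : Levels G} {U : Subgroup G} {X : Rep.{0} k ↥U}
    (hU : 𝓤.IsOpen U) (hX : IsSmooth (𝓤.comap U.subtype) X) (K : Cx k G) :
    Module.finrank k ↥(HH0 (homCx (ecShInd U.subtype 𝓤 X) K))
      = Module.finrank k ↥(HH0 (homCx X (K.res U.subtype))) := by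
  have := ecSh_finite_quotient hU
  have _ : Fintype (G ⧸ U) := Fintype.ofFinite _
  exact ecSh_finrank_HH0_hom hU hX K

end Fermat.Agent.F4
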