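import Fermat.Agent.S56.W2.EC.Sh.H1

/-!
# S56 / W2 / EC / Sh / H0 : Shapiro's lemma in degree 0 for smooth coinduction (helper48)

* `ecShInv Y` : the invariants of a representation, as a submodule;
* `ecShH0`   : `(coInd r 𝓤 X)^G ≃ X^D`  (SH0), `φ ↦ φ 1`, for any `r : D →* G`.
-/

set_option autoImplicit false

open CategoryTheory groupCohomology

namespace Fermat.Agent.F4

variable {k D G : Type} [CommRing k] [Group D] [Group G]

/-- The invariants of a representation. -/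
def ecShInv {H : Type} [Group H] (Y : Rep.{0} k H) : Submodule k Y where
  carrier := {y | ∀ h : H, Y.ρ h y = y}
  add_mem' := fun ha hb h => by rw [map_add, ha h, hb h]
  zero_mem' := fun h => map_zero _
  smul_mem' := fun c _ ha h => by rw [map_smul, ha h]

lemma mem_ecShInv {H : Type} [Group H] (Y : Rep.{0} k H) (y : Y) :
    y ∈ ecShInv Y ↔ ∀ h : H, Y.ρ h y = y := Iff.rfl

section H0

variable (r : D →* G) (𝓤 : Levels G) (X : Rep.{0} k D)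

lemma ecShEv_mem_inv (φ : ecShInd r 𝓤 X) (hφ : φ ∈ ecShInv (ecShInd r 𝓤 X)) :
    ecShEv r 𝓤 X φ ∈ ecShInv X := fun d => by
  rw [← ecShEv_ρ, hφ (r d)]

lemma ecShFun_of_inv (φ : ecShInd r 𝓤 X) (hφ : φ ∈ ecShInv (ecShInd r 𝓤 X)) (g : G) :
    ecShFun r 𝓤 X φ g = ecShEv r 𝓤 X φ := by
  rw [← ecShEv_ρ_apply, hφ g]

lemma ecSh_const_mem (x : X) (hx : x ∈ ecShInv X) : (fun _ : G => x) ∈ coIndSub r 𝓤 X :=
  ⟨fun d _ => (hx d).symm, isLC₁_const 𝓤 x⟩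

/-- The constant function with an invariant value. -/
def ecShConst (x : X) (hx : x ∈ ecShInv X) : ecShInd r 𝓤 X :=
  ecShMk r 𝓤 X (fun _ => x) (ecSh_const_mem r 𝓤 X x hx)

lemma ecShConst_mem (x : X) (hx : x ∈ ecShInv X) :
    ecShConst r 𝓤 X x hx ∈ ecShInv (ecShInd r 𝓤 X) := fun g =>
  ecShFun_ext fun y => by
    rw [ecShFun_ρ]
    rfl

/-- **(SH0)** `(coInd r 𝓤 X)^G ≃ X^D`. -/
def ecShH0 : ↥(ecShInv (ecShInd r 𝓤 X)) ≃ₗ[k] ↥(ecShInv X) where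
  toFun φ := ⟨ecShEv r 𝓤 X φ.1, ecShEv_mem_inv r 𝓤 X φ.1 φ.2⟩
  map_add' _ _ := rfl
  map_smul' _ _ := rfl
  invFun x := ⟨ecShConst r 𝓤 X x.1 x.2, ecShConst_mem r 𝓤 X x.1 x.2⟩
  left_inv φ := Subtype.ext (ecShFun_ext fun g => by
    show ecShEv r 𝓤 X φ.1 = ecShFun r 𝓤 X φ.1 g
    rw [ecShFun_of_inv r 𝓤 X φ.1 φ.2])
  right_inv _ := rfl

@[simp] lemma ecShH0_apply (φ : ↥(ecShInv (ecShInd r 𝓤 X))) :
    ((ecShH0 r 𝓤 X φ : ↥(ecShInv X)) : X) = ecShEv r 𝓤 X φ.1 := rfl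

lemma ecSh_finrank_inv :
    Module.finrank k ↥(ecShInv (ecShInd r 𝓤 X)) = Module.finrank k ↥(ecShInv X) :=
  (ecShH0 r 𝓤 X).finrank_eq

end H0

end Fermat.Agent.F4
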