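import Fermat.Agent.S56.W2.EC.Sh.Hom
import Fermat.Agent.S56.W2.EC.Sh.H0
import Fermat.Agent.S56.W2.EC.Defs

/-!
# S56 / W2 / EC / Sh / Psi : `Ψ` of a module coinduced from an open subgroup (helper48)

Step (C) of W2-EC: for `U` open in `G_S` and a smooth `𝔽_p[U]`-module `X`,

  `Ψ(coInd_U X) = h¹(U, X) - h⁰(U, X) - dim HH⁰(U, Hom(X, K_C|_U)) - dim (coInd_U X)^{c = -1}`.
-/

set_option autoImplicit false

open CategoryTheory groupCohomology ExtCitation

namespace Fermat.Agent.S56.EC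

open Fermat.Agent.F4

variable {p : ℕ} [Fact p.Prime]

lemma ecSh_H0glob_eq (N : Rep.{0} (ZMod p) GQ) : H0glob N = ecShInv N := rfl

/-- **Step (C)**: `Ψ` of a coinduced module in terms of the subgroup. -/
theorem ecSh_psiK_coInd (S : Finset Nat.Primes) (KC : Cx (ZMod p) GQ) {U : Subgroup GQ}
    (hU : (levelsS S).IsOpen U) (X : Rep.{0} (ZMod p) ↥U)
    (hX : IsSmooth ((levelsS S).comap U.subtype) X) :
    psiK S KC (coInd U.subtype (levelsS S) X)
      = (Module.finrank (ZMod p) (H1sm ((levelsS S).comap U.subtype) X) : ℤ)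
        - (Module.finrank (ZMod p) ↥(ecShInv X) : ℤ)
        - (Module.finrank (ZMod p) ↥(HH0 (homCx X (KC.res U.subtype))) : ℤ)
        - (Module.finrank (ZMod p) ↥(negArch (coInd U.subtype (levelsS S) X)) : ℤ) := by
  unfold psiK
  rw [ecSh_H0glob_eq, (ecShH1 U.subtype (levelsS S) X hX).finrank_eq,
    ecSh_finrank_inv U.subtype (levelsS S) X,
    ecSh_finrank_HH0_hom_of_isOpen hU hX KC]

end Fermat.Agent.S56.EC
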