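import Fermat.Agent.S56.W2.EC.Sh.H1
import Fermat.Agent.F4.Shapiro.Core

/-!
# S56 / W2 / EC / Sh / InfRes : inflation–restriction for a quotient of invertible order (helper48)

`H` a group with a level structure `𝓥`, `N ≤ H` a normal subgroup of finite index `m`, open for
`𝓥`, with `m` invertible in `k`; `X` a `k[H]`-module on which `N` acts trivially.  Then
restriction to `N` is an isomorphism

  `H¹_sm(H, X) ≃ Hom_sm(N, X)^H`          (SHS)

onto the smooth homomorphisms `f : N → X` with `f (h n h⁻¹) = h • f n`.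

* `ecShHomInv 𝓥 N X` : the target, a submodule of `N → X`;
* `ecShCor` : the corestriction `f ↦ (h ↦ ∑ₓ s(x) • f (w(x, h)))`;
* `ecShInfRes` : the isomorphism.
-/

set_option autoImplicit false
set_option linter.unusedSectionVars false

open CategoryTheory groupCohomology

namespace Fermat.Agent.F4

variable {k H : Type} [CommRing k] [Group H]

section Target

variable (𝓥 : Levels H) (N : Subgroup H) [hN : N.Normal] (X : Rep.{0} k H)

/-- The smooth `H`-invariant homomorphisms `N → X`. -/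
def ecShHomInv : Submodule k (N → X) where
  carrier := {f | (∀ n n' : N, f (n * n') = f n + f n') ∧
    (∀ (h : H) (n : N), f ⟨h * n * h⁻¹, hN.conj_mem n n.2 h⟩ = X.ρ h (f n)) ∧
    ∃ V ∈ 𝓥.sets, ∀ n : N, (n : H) ∈ V → f n = 0}
  add_mem' := by
    rintro f f' ⟨h1, h2, V, hV, h3⟩ ⟨h1', h2', V', hV', h3'⟩
    refine ⟨fun n n' => ?_, fun h n => ?_, ?_⟩
    · simp only [Pi.add_apply, h1, h1']
      abel
    · simp only [Pi.add_apply, h2, h2', map_add]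
    · obtain ⟨W, hW, hWle⟩ := 𝓥.directed V hV V' hV'
      refine ⟨W, hW, fun n hn => ?_⟩
      simp only [Pi.add_apply, h3 n (hWle hn).1, h3' n (hWle hn).2, add_zero]
  zero_mem' := by
    obtain ⟨V, hV⟩ := 𝓥.nonempty
    exact ⟨fun _ _ => by simp, fun _ _ => by simp, V, hV, fun _ _ => rfl⟩
  smul_mem' := by
    rintro c f ⟨h1, h2, V, hV, h3⟩
    refine ⟨fun n n' => ?_, fun h n => ?_, V, hV, fun n hn => ?_⟩
    · simp only [Pi.smul_apply, h1, smul_add]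
    · simp only [Pi.smul_apply, h2, map_smul]
    · simp only [Pi.smul_apply, h3 n hn, smul_zero]

lemma mem_ecShHomInv_iff (f : N → X) :
    f ∈ ecShHomInv 𝓥 N X ↔ (∀ n n' : N, f (n * n') = f n + f n') ∧
      (∀ (h : H) (n : N), f ⟨h * n * h⁻¹, hN.conj_mem n n.2 h⟩ = X.ρ h (f n)) ∧
      ∃ V ∈ 𝓥.sets, ∀ n : N, (n : H) ∈ V → f n = 0 := Iff.rfl

end Target

section Res

variable (𝓥 : Levels H) (N : Subgroup H) [hN : N.Normal] (X : Rep.{0} k H)
  (htriv : ∀ n ∈ N, ∀ x : X, X.ρ n x = x)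

include htriv in
lemma ecShRes_mem (z : H → X) (hz : z ∈ Z1 𝓥 X) :
    (fun n : N => z (n : H)) ∈ ecShHomInv 𝓥 N X := by
  obtain ⟨h1, V, hV, h2⟩ := (ecSh_mem_Z1_iff 𝓥 X z).1 hz
  have hz1 : z 1 = 0 := by
    have := h1 1 1
    rw [mul_one, map_one, Module.End.one_apply] at this
    exact left_eq_add.1 this
  refine ⟨fun n n' => ?_, fun h n => ?_, V, hV, fun n hn => ?_⟩
  · show z ((n : H) * (n' : H)) = z n + z n'
    rw [h1, htriv n n.2, add_comm]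
  · show z (h * n * h⁻¹) = X.ρ h (z n)
    have h3 : X.ρ h (z h⁻¹) + z h = 0 := by
      rw [← h1, mul_inv_cancel, hz1]
    rw [h1, h1, map_mul, Module.End.mul_apply, htriv n n.2, eq_neg_of_add_eq_zero_left h3]
    abel
  · have := h2 1 n hn
    rw [one_mul, hz1] at this
    exact this

/-- Restriction of smooth 1-cocycles to `N`. -/
def ecShResZ1 : ↥(Z1 𝓥 X) →ₗ[k] ↥(ecShHomInv 𝓥 N X) where
  toFun z := ⟨fun n : N => z.1 (n : H), ecShRes_mem 𝓥 N X htriv z.1 z.2⟩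
  map_add' _ _ := rfl
  map_smul' _ _ := rfl

@[simp] lemma ecShResZ1_coe (z : ↥(Z1 𝓥 X)) (n : N) :
    ((ecShResZ1 𝓥 N X htriv z : ↥(ecShHomInv 𝓥 N X)) : N → X) n = z.1 (n : H) := rfl

/-- Restriction `H¹_sm(H, X) → Hom_sm(N, X)^H`. -/
def ecShResH1 : H1sm 𝓥 X →ₗ[k] ↥(ecShHomInv 𝓥 N X) :=
  Submodule.liftQ _ (ecShResZ1 𝓥 N X htriv) (by
    rintro z hz
    rw [Submodule.mem_comap, Submodule.subtype_apply] at hz
    obtain ⟨x, hx⟩ := (ecSh_mem_B1_iff X _).1 hz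
    rw [LinearMap.mem_ker]
    refine Subtype.ext (funext fun n => ?_)
    rw [ecShResZ1_coe, ← hx, δ0_apply, htriv n n.2, sub_self]
    rfl)

@[simp] lemma ecShResH1_mk (z : ↥(Z1 𝓥 X)) :
    ecShResH1 𝓥 N X htriv (H1smπ 𝓥 X z) = ecShResZ1 𝓥 N X htriv z := rfl

end Res

section Inj

variable (𝓥 : Levels H) (N : Subgroup H) [hN : N.Normal] (X : Rep.{0} k H)
  (htriv : ∀ n ∈ N, ∀ x : X, X.ρ n x = x) [Fintype (H ⧸ N)]

include htriv in
/-- A cocycle vanishing on `N` is constant on the cosets of `N`. -/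
lemma ecSh_const_coset (z : H → X) (h1 : ∀ g h : H, z (g * h) = X.ρ g (z h) + z g)
    (h0 : ∀ n : N, z n = 0) (h : H) (x : H ⧸ N) :
    z (h * shSec N x) = z (shSec N (h • x)) := by
  have hmem : (shSec N (h • x))⁻¹ * (h * shSec N x) ∈ N := by
    rw [← QuotientGroup.eq, mk_shSec, mk_mul_shSec]
  have : h * shSec N x = shSec N (h • x) * ((shSec N (h • x))⁻¹ * (h * shSec N x)) := by group
  rw [this, h1, h0 ⟨_, hmem⟩, map_zero, zero_add]

include htriv in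
/-- **Injectivity of restriction** when `[H : N]` is invertible in `k`. -/
theorem ecShResH1_injective (m' : k) (hm : (Fintype.card (H ⧸ N) : k) * m' = 1) :
    Function.Injective (ecShResH1 𝓥 N X htriv) := by
  rw [injective_iff_map_eq_zero]
  intro c hc
  obtain ⟨z, rfl⟩ := ecSh_H1smπ_surjective 𝓥 X c
  rw [ecShResH1_mk] at hc
  have h0 : ∀ n : N, z.1 (n : H) = 0 := fun n => congrFun (congrArg Subtype.val hc) n
  obtain ⟨h1, -⟩ := (ecSh_mem_Z1_iff 𝓥 X z.1).1 z.2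
  rw [ecSh_H1smπ_eq_zero_iff]
  refine ⟨-(m' • ∑ x : H ⧸ N, z.1 (shSec N x)), ?_⟩
  funext h
  rw [δ0_apply, map_neg, map_smul, map_sum]
  have hsum : ∑ x : H ⧸ N, X.ρ h (z.1 (shSec N x))
      = ∑ x : H ⧸ N, z.1 (shSec N x) - (Fintype.card (H ⧸ N) : k) • z.1 h := by
    have e1 : ∀ x : H ⧸ N, X.ρ h (z.1 (shSec N x)) = z.1 (shSec N (h • x)) - z.1 h := by
      intro x
      rw [← ecSh_const_coset N X htriv z.1 h1 h0 h x, h1]
      abel
    rw [Finset.sum_congr rfl fun x _ => e1 x, Finset.sum_sub_distrib, Finset.sum_const,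
      Finset.card_univ, ← Nat.cast_smul_eq_nsmul k]
    congr 1
    exact Fintype.sum_equiv (MulAction.toPerm h) _ _ fun x => rfl
  rw [hsum, smul_sub, smul_smul, mul_comm, hm, one_smul]
  abel

end Inj

section Cor

variable (𝓥 : Levels H) (N : Subgroup H) [hN : N.Normal] (X : Rep.{0} k H)
  (htriv : ∀ n ∈ N, ∀ x : X, X.ρ n x = x) [Fintype (H ⧸ N)]

/-- The corestriction of a function on `N`: `h ↦ ∑ₓ s(x) • f (w(x, h))`. -/
noncomputable def ecShCor (f : N → X) (h : H) : X :=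
  ∑ x : H ⧸ N, X.ρ (shSec N x) (f (shW N x h))

include htriv in
lemma ecShCor_mul (f : N → X) (hf : ∀ n n' : N, f (n * n') = f n + f n') (g h : H) :
    ecShCor N X f (g * h) = X.ρ g (ecShCor N X f h) + ecShCor N X f g := by
  unfold ecShCor
  rw [map_sum, add_comm, ← Finset.sum_add_distrib]
  have e1 : ∀ x : H ⧸ N, X.ρ (shSec N x) (f (shW N x (g * h)))
      = X.ρ (shSec N x) (f (shW N x g)) + X.ρ g (X.ρ (shSec N (g⁻¹ • x)) (f (shW N (g⁻¹ • x) h))) := by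
    intro x
    rw [shW_mul, hf, map_add]
    congr 1
    rw [← Module.End.mul_apply, ← map_mul, ← shSec_mul_shW, map_mul, Module.End.mul_apply,
      htriv _ (shW N x g).2]
  rw [Finset.sum_congr rfl fun x _ => e1 x, Finset.sum_add_distrib, Finset.sum_add_distrib]
  congr 1
  exact Fintype.sum_equiv (MulAction.toPerm g⁻¹) _ _ fun x => rfl

lemma ecSh_inv_smul_of_mem (n : N) (x : H ⧸ N) : (n : H)⁻¹ • x = x :=
  smul_eq_of_mem_normal N hN le_rfl (N.inv_mem n.2) x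

lemma ecShCor_res (f : N → X)
    (hinv : ∀ (h : H) (n : N), f ⟨h * n * h⁻¹, hN.conj_mem n n.2 h⟩ = X.ρ h (f n)) (n : N) :
    ecShCor N X f (n : H) = (Fintype.card (H ⧸ N) : k) • f n := by
  unfold ecShCor
  have e1 : ∀ x : H ⧸ N, X.ρ (shSec N x) (f (shW N x n)) = f n := by
    intro x
    have h2 : shW N x (n : H) = ⟨(shSec N x)⁻¹ * n * ((shSec N x)⁻¹)⁻¹,
        hN.conj_mem n n.2 (shSec N x)⁻¹⟩ := by
      apply Subtype.ext
      show (shSec N x)⁻¹ * n * shSec N ((n : H)⁻¹ • x) = (shSec N x)⁻¹ * n * ((shSec N x)⁻¹)⁻¹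
      rw [ecSh_inv_smul_of_mem N n x, inv_inv]
    rw [h2, hinv, ← Module.End.mul_apply, ← map_mul, mul_inv_cancel, map_one,
      Module.End.one_apply]
  rw [Finset.sum_congr rfl fun x _ => e1 x, Finset.sum_const, Finset.card_univ,
    Nat.cast_smul_eq_nsmul]

include htriv in
lemma ecShCor_mem (hNo : ∃ V₀ ∈ 𝓥.sets, V₀ ≤ N) (f : N → X) (hf : f ∈ ecShHomInv 𝓥 N X) :
    ecShCor N X f ∈ Z1 𝓥 X := by
  obtain ⟨h1, h2, V, hV, h3⟩ := hf
  refine (ecSh_mem_Z1_iff 𝓥 X _).2 ⟨ecShCor_mul N X htriv f h1, ?_⟩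
  obtain ⟨V₀, hV₀, hV₀N⟩ := hNo
  obtain ⟨V', hV', hle⟩ := 𝓥.directed V₀ hV₀ V hV
  refine ⟨V', hV', fun g s hs => ?_⟩
  rw [ecShCor_mul N X htriv f h1, ecShCor_res N X f h2 ⟨s, hV₀N (hle hs).1⟩,
    h3 ⟨s, hV₀N (hle hs).1⟩ (hle hs).2, smul_zero, map_zero, zero_add]

include htriv in
/-- **Surjectivity of restriction** when `[H : N]` is invertible in `k`. -/
theorem ecShResH1_surjective (hNo : ∃ V₀ ∈ 𝓥.sets, V₀ ≤ N) (m' : k)
    (hm : (Fintype.card (H ⧸ N) : k) * m' = 1) :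
    Function.Surjective (ecShResH1 𝓥 N X htriv) := by
  intro f
  have hmem : m' • ecShCor N X f.1 ∈ Z1 𝓥 X :=
    (Z1 𝓥 X).smul_mem m' (ecShCor_mem 𝓥 N X htriv hNo f.1 f.2)
  refine ⟨H1smπ 𝓥 X ⟨_, hmem⟩, ?_⟩
  rw [ecShResH1_mk]
  refine Subtype.ext (funext fun n => ?_)
  rw [ecShResZ1_coe]
  show m' • ecShCor N X f.1 (n : H) = f.1 n
  rw [ecShCor_res N X f.1 f.2.2.1 n, smul_smul, mul_comm, hm, one_smul]

/-- **(SHS) inflation–restriction**: `H¹_sm(H, X) ≃ Hom_sm(N, X)^H` for `[H : N]` invertible. -/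
noncomputable def ecShInfRes (hNo : ∃ V₀ ∈ 𝓥.sets, V₀ ≤ N) (m' : k)
    (hm : (Fintype.card (H ⧸ N) : k) * m' = 1) :
    H1sm 𝓥 X ≃ₗ[k] ↥(ecShHomInv 𝓥 N X) :=
  LinearEquiv.ofBijective (ecShResH1 𝓥 N X htriv)
    ⟨ecShResH1_injective 𝓥 N X htriv m' hm, ecShResH1_surjective 𝓥 N X htriv hNo m' hm⟩

@[simp] lemma ecShInfRes_mk (hNo : ∃ V₀ ∈ 𝓥.sets, V₀ ≤ N) (m' : k)
    (hm : (Fintype.card (H ⧸ N) : k) * m' = 1) (z : ↥(Z1 𝓥 X)) (n : N) :
    ((ecShInfRes 𝓥 N X htriv hNo m' hm (H1smπ 𝓥 X z) : ↥(ecShHomInv 𝓥 N X)) : N → X) n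
      = z.1 (n : H) := rfl

end Cor

end Fermat.Agent.F4

namespace Fermat.Agent.F4

/-- (SHS) over `𝔽_p`, in the form used by the cyclic case: `N` open normal of index prime to
`p`, acting trivially on `X`. -/
noncomputable def ecShInfResZMod {p : ℕ} [Fact p.Prime] {H : Type} [Group H] (𝓥 : Levels H)
    (N : Subgroup H) [N.Normal] (X : Rep.{0} (ZMod p) H)
    (htriv : ∀ n ∈ N, ∀ x : X, X.ρ n x = x) (hNo : ∃ V₀ ∈ 𝓥.sets, V₀ ≤ N)
    (hp : ¬ p ∣ N.index) :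
    H1sm 𝓥 X ≃ₗ[ZMod p] ↥(ecShHomInv 𝓥 N X) := by
  have hfi : N.FiniteIndex := by
    obtain ⟨V₀, hV₀, hle⟩ := hNo
    have := 𝓥.finiteIndex V₀ hV₀
    exact Subgroup.finiteIndex_of_le hle
  have : Finite (H ⧸ N) := Subgroup.finite_quotient_of_finiteIndex
  letI : Fintype (H ⧸ N) := Fintype.ofFinite _
  have hcard : Fintype.card (H ⧸ N) = N.index := by
    rw [Subgroup.index_eq_card, Nat.card_eq_fintype_card]
  have hne : ((Fintype.card (H ⧸ N) : ℕ) : ZMod p) ≠ 0 := by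
    rw [hcard, Ne, ZMod.natCast_eq_zero_iff]
    exact hp
  exact ecShInfRes 𝓥 N X htriv hNo ((Fintype.card (H ⧸ N) : ZMod p))⁻¹ (mul_inv_cancel₀ hne)

lemma ecShInfResZMod_mk {p : ℕ} [Fact p.Prime] {H : Type} [Group H] (𝓥 : Levels H)
    (N : Subgroup H) [N.Normal] (X : Rep.{0} (ZMod p) H)
    (htriv : ∀ n ∈ N, ∀ x : X, X.ρ n x = x) (hNo : ∃ V₀ ∈ 𝓥.sets, V₀ ≤ N)
    (hp : ¬ p ∣ N.index) (z : ↥(Z1 𝓥 X)) (n : N) :
    ((ecShInfResZMod 𝓥 N X htriv hNo hp (H1smπ 𝓥 X z) : ↥(ecShHomInv 𝓥 N X)) : N → X) n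
      = z.1 (n : H) := rfl

end Fermat.Agent.F4
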