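import Fermat.Agent.S56.W2.EC.Sh.H1
import Fermat.Agent.F4.Shapiro.Core
import Fermat.Agent.F4.Formation

/-!
# S56 / W2 / EC / Sh / Coord : coordinates on a module coinduced from an open subgroup (helper48)

`U ≤ G` open for the level structure `𝓤`, `X` a smooth `k[U]`-module, `M = coInd U.subtype 𝓤 X`.
With the section `s = shSec U` of `G → G ⧸ U` (`F4/Shapiro/Core.lean`):

* `ecShPi x : M →ₗ X`, `φ ↦ φ (s x)⁻¹`, the coordinate at the coset `x`;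
* `ecShPi_ρ` : `π_x (g φ) = w(x, g) • π_{g⁻¹ x} φ`, `w = shW U`;
* `ecShLift` : the element with given coordinates; `ecShCoord : M ≃ₗ (G ⧸ U → X)`.
-/

set_option autoImplicit false

open CategoryTheory groupCohomology

namespace Fermat.Agent.F4

variable {k G : Type} [CommRing k] [Group G]

section Coord

variable (𝓤 : Levels G) (U : Subgroup G) (X : Rep.{0} k ↥U)

lemma ecShU_mem (g : G) : g * shSec U ((g⁻¹ : G) : G ⧸ U) ∈ U := by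
  have h := mk_shSec U ((g⁻¹ : G) : G ⧸ U)
  rw [QuotientGroup.eq] at h
  have : (shSec U ((g⁻¹ : G) : G ⧸ U))⁻¹ * g⁻¹ = (g * shSec U ((g⁻¹ : G) : G ⧸ U))⁻¹ := by group
  rw [this] at h
  exact (U.inv_mem_iff).1 h

/-- `u(g) = g s([g⁻¹]) ∈ U`, so that `g = u(g) s([g⁻¹])⁻¹`. -/
noncomputable def ecShU (g : G) : U := ⟨g * shSec U ((g⁻¹ : G) : G ⧸ U), ecShU_mem U g⟩

lemma ecShU_coe (g : G) : ((ecShU U g : U) : G) = g * shSec U ((g⁻¹ : G) : G ⧸ U) := rfl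

lemma ecShU_mul_inv (g : G) : ((ecShU U g : U) : G) * (shSec U ((g⁻¹ : G) : G ⧸ U))⁻¹ = g := by
  rw [ecShU_coe, mul_inv_cancel_right]

lemma ecSh_mk_inv_mul (u : U) (g : G) :
    ((((u : G) * g)⁻¹ : G) : G ⧸ U) = ((g⁻¹ : G) : G ⧸ U) := by
  rw [QuotientGroup.eq]
  have : (((u : G) * g)⁻¹)⁻¹ * g⁻¹ = (u : G) := by group
  rw [this]
  exact u.2

lemma ecShU_mul (u : U) (g : G) : ecShU U ((u : G) * g) = u * ecShU U g := by
  apply Subtype.ext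
  rw [Subgroup.coe_mul, ecShU_coe, ecShU_coe, ecSh_mk_inv_mul, mul_assoc]

lemma ecSh_mk_inv_shSec_inv (x : G ⧸ U) : ((((shSec U x)⁻¹)⁻¹ : G) : G ⧸ U) = x := by
  rw [inv_inv, mk_shSec]

lemma ecSh_mk_inv_shSec_inv_mul (x : G ⧸ U) (g : G) :
    (((((shSec U x)⁻¹ * g)⁻¹ : G)) : G ⧸ U) = g⁻¹ • x := by
  rw [mul_inv_rev, inv_inv]
  exact mk_mul_shSec U g⁻¹ x

lemma ecShU_shSec_inv_mul (x : G ⧸ U) (g : G) : ecShU U ((shSec U x)⁻¹ * g) = shW U x g := by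
  apply Subtype.ext
  rw [ecShU_coe, shW_coe, ecSh_mk_inv_shSec_inv_mul]

/-- The coordinate at the coset `x`: `φ ↦ φ (s x)⁻¹`. -/
noncomputable def ecShPi (x : G ⧸ U) : (ecShInd U.subtype 𝓤 X) →ₗ[k] X where
  toFun φ := ecShFun U.subtype 𝓤 X φ (shSec U x)⁻¹
  map_add' _ _ := rfl
  map_smul' _ _ := rfl

lemma ecShPi_apply (x : G ⧸ U) (φ : ecShInd U.subtype 𝓤 X) :
    ecShPi 𝓤 U X x φ = ecShFun U.subtype 𝓤 X φ (shSec U x)⁻¹ := rfl

/-- The values of a coinduced function from its coordinates. -/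
lemma ecShFun_eq (φ : ecShInd U.subtype 𝓤 X) (g : G) :
    ecShFun U.subtype 𝓤 X φ g = X.ρ (ecShU U g) (ecShPi 𝓤 U X ((g⁻¹ : G) : G ⧸ U) φ) := by
  rw [ecShPi_apply, ← ecShFun_equivariant]
  congr 1
  exact (ecShU_mul_inv U g).symm

lemma ecShPi_ρ (x : G ⧸ U) (g : G) (φ : ecShInd U.subtype 𝓤 X) :
    ecShPi 𝓤 U X x ((ecShInd U.subtype 𝓤 X).ρ g φ)
      = X.ρ (shW U x g) (ecShPi 𝓤 U X (g⁻¹ • x) φ) := by
  rw [ecShPi_apply, ecShFun_ρ, ecShFun_eq, ecShU_shSec_inv_mul, ecSh_mk_inv_shSec_inv_mul]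

lemma ecShPi_ext {φ ψ : ecShInd U.subtype 𝓤 X}
    (h : ∀ x, ecShPi 𝓤 U X x φ = ecShPi 𝓤 U X x ψ) : φ = ψ := by
  refine ecShFun_ext fun g => ?_
  rw [ecShFun_eq, ecShFun_eq, h]

/-! ### The element with given coordinates -/

variable {𝓤 U X}

lemma ecSh_finite_quotient (hU : 𝓤.IsOpen U) : Finite (G ⧸ U) := by
  obtain ⟨V, hV, hVU⟩ := hU
  have := 𝓤.finiteIndex V hV
  have : U.FiniteIndex := Subgroup.finiteIndex_of_le hVU
  exact Subgroup.finite_quotient_of_finiteIndex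

/-- A common level `V ≤ U` fixing finitely many elements of a smooth `U`-module. -/
lemma ecSh_exists_level (hU : 𝓤.IsOpen U) {X : Rep.{0} k ↥U} (hX : IsSmooth (𝓤.comap U.subtype) X)
    {ι : Type} [Finite ι] (F : ι → X) :
    ∃ V ∈ 𝓤.sets, V ≤ U ∧ ∀ (u : U), (u : G) ∈ V → ∀ i, X.ρ u (F i) = F i := by
  obtain ⟨V₀, hV₀, hV₀U⟩ := hU
  have key : ∃ V ∈ 𝓤.sets, ∀ i ∈ (Set.univ : Set ι), ∀ (u : U), (u : G) ∈ V → X.ρ u (F i) = F i := by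
    refine 𝓤.coind_exists_le_of_finite Set.univ Set.finite_univ
      (fun i V => ∀ (u : U), (u : G) ∈ V → X.ρ u (F i) = F i) (fun i _ => ?_)
      (fun i V V' hle h u hu => h u (hle hu))
    obtain ⟨_, ⟨V, hV, rfl⟩, h⟩ := hX (F i)
    exact ⟨V, hV, fun u hu => h u hu⟩
  obtain ⟨V₁, hV₁, h₁⟩ := key
  obtain ⟨W, hW, hWle⟩ := 𝓤.directed V₀ hV₀ V₁ hV₁
  exact ⟨W, hW, fun g hg => hV₀U (hWle hg).1, fun u hu i => h₁ i (Set.mem_univ i) u (hWle hu).2⟩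

variable (U X) in
/-- The function with coordinates `F`. -/
noncomputable def ecShLiftFun (F : G ⧸ U → X) (g : G) : X :=
  X.ρ (ecShU U g) (F ((g⁻¹ : G) : G ⧸ U))

lemma ecShLiftFun_mem (hU : 𝓤.IsOpen U) (hX : IsSmooth (𝓤.comap U.subtype) X) (F : G ⧸ U → X) :
    ecShLiftFun U X F ∈ coIndSub U.subtype 𝓤 X := by
  have := ecSh_finite_quotient hU
  obtain ⟨V, hV, hVU, hfix⟩ := ecSh_exists_level hU hX F
  have hVn : V.Normal := 𝓤.normal V hV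
  refine ⟨fun u g => ?_, V, hV, fun g v hv => ?_⟩
  · show X.ρ (ecShU U ((u : G) * g)) (F ((((u : G) * g)⁻¹ : G) : G ⧸ U)) = X.ρ u (X.ρ (ecShU U g) _)
    rw [ecShU_mul, ecSh_mk_inv_mul, map_mul]
    rfl
  · have hx : (((g * v)⁻¹ : G) : G ⧸ U) = ((g⁻¹ : G) : G ⧸ U) := by
      rw [QuotientGroup.eq]
      have : ((g * v)⁻¹)⁻¹ * g⁻¹ = g * v * g⁻¹ := by group
      rw [this]
      exact hVU (hVn.conj_mem v hv g)
    have hmem : (shSec U ((g⁻¹ : G) : G ⧸ U))⁻¹ * v * shSec U ((g⁻¹ : G) : G ⧸ U) ∈ V := by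
      have := hVn.conj_mem v hv (shSec U ((g⁻¹ : G) : G ⧸ U))⁻¹
      rwa [inv_inv] at this
    have hu : ecShU U (g * v) = ecShU U g * ⟨_, hVU hmem⟩ := by
      apply Subtype.ext
      rw [Subgroup.coe_mul, ecShU_coe, ecShU_coe, hx]
      simp only
      group
    show X.ρ (ecShU U (g * v)) (F (((g * v)⁻¹ : G) : G ⧸ U)) = X.ρ (ecShU U g) (F _)
    rw [hu, hx, map_mul]
    show X.ρ (ecShU U g) (X.ρ _ (F _)) = _
    rw [hfix _ hmem]

/-- The element of the coinduced module with coordinates `F`. -/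
noncomputable def ecShLift (hU : 𝓤.IsOpen U) (hX : IsSmooth (𝓤.comap U.subtype) X)
    (F : G ⧸ U → X) : ecShInd U.subtype 𝓤 X :=
  ecShMk U.subtype 𝓤 X (ecShLiftFun U X F) (ecShLiftFun_mem hU hX F)

lemma ecShPi_lift (hU : 𝓤.IsOpen U) (hX : IsSmooth (𝓤.comap U.subtype) X) (F : G ⧸ U → X)
    (x : G ⧸ U) : ecShPi 𝓤 U X x (ecShLift hU hX F) = F x := by
  rw [ecShPi_apply]
  show X.ρ (ecShU U (shSec U x)⁻¹) (F ((((shSec U x)⁻¹)⁻¹ : G) : G ⧸ U)) = F x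
  rw [ecSh_mk_inv_shSec_inv]
  have : ecShU U (shSec U x)⁻¹ = 1 := by
    apply Subtype.ext
    rw [ecShU_coe, ecSh_mk_inv_shSec_inv, inv_mul_cancel]
    rfl
  rw [this, map_one]
  rfl

/-- **Coordinates**: `coInd U.subtype 𝓤 X ≃ (G ⧸ U → X)`. -/
noncomputable def ecShCoord (hU : 𝓤.IsOpen U) (hX : IsSmooth (𝓤.comap U.subtype) X) :
    (ecShInd U.subtype 𝓤 X) ≃ₗ[k] (G ⧸ U → X) where
  toFun φ x := ecShPi 𝓤 U X x φ
  map_add' _ _ := rfl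
  map_smul' _ _ := rfl
  invFun F := ecShLift hU hX F
  left_inv _ := ecShPi_ext 𝓤 U X fun x => ecShPi_lift hU hX _ x
  right_inv F := funext fun x => ecShPi_lift hU hX F x

@[simp] lemma ecShCoord_apply (hU : 𝓤.IsOpen U) (hX : IsSmooth (𝓤.comap U.subtype) X)
    (φ : ecShInd U.subtype 𝓤 X) (x : G ⧸ U) :
    ecShCoord hU hX φ x = ecShPi 𝓤 U X x φ := rfl

end Coord

end Fermat.Agent.F4
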